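import Fermat.Agent.DefCond.OrdinaryCond
import Fermat.Agent.RepTheory.GaloisBridge

/-!
# Ordinarity and base change

Residual irreducibility and residual ordinarity pass to base changes, and the equations of
ordinarity are detected by any separating family of homomorphisms.
-/

set_option autoImplicit false

namespace Fermat.Agent.OrdinaryGlue

open IsLocalRing Module
open Fermat.Agent.Deformation (GQ)

variable {A B : Type} [CommRing A] [IsLocalRing A] [CommRing B] [IsLocalRing B]

theorem repMat_residual (ρ : GaloisRepAdic A) (b : Basis (Fin 2) A ρ.V) (σ : GQ) :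
    DefCond.repMat (GaloisRepAdic.ofResidualGaloisRep ρ.residual)
        (b.baseChange (ResidueField A)) σ = (DefCond.repMat ρ b σ).map (residue A) :=
  DFunLike.congr_fun (RepTheory.matRep_residual ρ b) σ

/-- Residual absolute irreducibility passes to base changes. -/
theorem residual_absIrr_baseChangeAlong (f : A →+* B) (hf : IsLocalHom f) (ρ : GaloisRepAdic A)
    (h : ρ.residual.IsAbsolutelyIrreducible) :
    (ρ.baseChangeAlong f hf).residual.IsAbsolutelyIrreducible := by
  obtain ⟨b⟩ := DefCond.exists_basis ρ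
  refine RepTheory.isAbsolutelyIrreducible_of_span_eq_top _ ((RepTheory.isFull_matRep_iff
    ((DefCond.bcBasis ρ b f hf).baseChange (ResidueField B)) _).1 ?_)
  have hfull : RepTheory.IsFull (RepTheory.mapRep (residue A) (RepTheory.matRep b ρ.ρ)) := by
    rw [← RepTheory.matRep_residual]
    exact RepTheory.isFull_of_isAbsolutelyIrreducible _ h _
  have heq : RepTheory.matRep ((DefCond.bcBasis ρ b f hf).baseChange (ResidueField B))
      (ρ.baseChangeAlong f hf).residual.ρ = RepTheory.mapRep (ResidueField.map f)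
        (RepTheory.mapRep (residue A) (RepTheory.matRep b ρ.ρ)) := by
    rw [RepTheory.matRep_residual]
    refine MonoidHom.ext fun σ => Matrix.ext fun i j => ?_
    have := congrFun₂ (DefCond.repMat_bcBasis ρ b f hf σ) i j
    show residue B (DefCond.repMat _ (DefCond.bcBasis ρ b f hf) σ i j) = _
    rw [this]
    rfl
  rw [heq]
  exact hfull.map _

variable {p : ℕ} [Fact p.Prime]

/-- Residual ordinarity passes to base changes. -/
theorem residual_ordinary_baseChangeAlong (hp2 : p ≠ 2) (f : A →+* B) (hf : IsLocalHom f)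
    (ρ : GaloisRepAdic A) (hdet : ρ.DetIsCyclotomic p)
    (h : (GaloisRepAdic.ofResidualGaloisRep ρ.residual).IsOrdinaryAt p) :
    (GaloisRepAdic.ofResidualGaloisRep (ρ.baseChangeAlong f hf).residual).IsOrdinaryAt p := by
  obtain ⟨b⟩ := DefCond.exists_basis ρ
  have hres : ∀ {R : Type} [CommRing R] [IsLocalRing R] (r : GaloisRepAdic R)
      (c : Basis (Fin 2) R r.V), r.DetIsCyclotomic p →
      (GaloisRepAdic.ofResidualGaloisRep r.residual).DetIsCyclotomic p := by
    intro R _ _ r c hr
    rw [DefCond.detIsCyclotomic_iff c] at hr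
    refine (DefCond.detIsCyclotomic_iff (c.baseChange (ResidueField R)) p).2
      ⟨?_, fun n σ a ha => ?_⟩
    · rw [← map_natCast (residue R), residue_eq_zero_iff _ |>.2 hr.1]
      exact zero_mem _
    · rw [repMat_residual, ← RingHom.mapMatrix_apply, ← RingHom.map_det,
        ← map_natCast (residue R) a,
        ← map_natCast (residue R) (p ^ n), ← map_sub]
      obtain ⟨z, hz⟩ := Ideal.mem_span_singleton'.mp (hr.2 n σ a ha)
      exact Ideal.mem_span_singleton'.mpr ⟨residue R z, by rw [← map_mul, hz]⟩
  rw [DefCond.isOrdinaryAt_iff hp2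
    (hres _ (DefCond.bcBasis ρ b f hf) (DefCond.det_map f hf hdet))
    ((DefCond.bcBasis ρ b f hf).baseChange (ResidueField B))]
  intro P hP σ₀ hσ₀ hμ
  refine (((DefCond.isOrdinaryAt_iff hp2 (hres ρ b hdet) (b.baseChange (ResidueField A))).1 h
    P hP σ₀ hσ₀ hμ).map (ResidueField.map f) fun σ => ?_)
  rw [repMat_residual, repMat_residual, DefCond.repMat_bcBasis, Matrix.map_map, Matrix.map_map]
  rfl

omit [IsLocalRing A] [IsLocalRing B] in
/-- The equations hold if they hold after each of a separating family of homomorphisms. -/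
theorem ordEq_of_separating {M : GQ → Matrix (Fin 2) (Fin 2) A}
    {P : ValuationSubring (AlgebraicClosure ℚ)} {σ₀ : GQ}
    (h : ∀ x : A, x ≠ 0 → ∃ (C : Type) (_ : CommRing C) (f : A →+* C), f x ≠ 0 ∧
      DefCond.OrdEq (fun σ => (M σ).map f) P σ₀) :
    DefCond.OrdEq M P σ₀ := by
  have key : ∀ x : A, (∀ (C : Type) [CommRing C] (f : A →+* C),
      DefCond.OrdEq (fun σ => (M σ).map f) P σ₀ → f x = 0) → x = 0 := fun x hx => by
    by_contra hne
    obtain ⟨C, hC, f, hfx, hf⟩ := h x hne
    exact hfx (hx C f hf)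
  refine ⟨key _ fun C _ f hf => (DefCond.OrdEq.of_mapped f (fun _ => rfl) hf).1,
    fun σ hσ => Matrix.ext fun i j => sub_eq_zero.1 (key _ fun C _ f hf => ?_),
    fun σ hσ => Matrix.ext fun i j => sub_eq_zero.1 (key _ fun C _ f hf => ?_)⟩
  · rw [map_sub, sub_eq_zero]
    exact congrFun₂ ((DefCond.OrdEq.of_mapped f (fun _ => rfl) hf).2.1 σ hσ) i j
  · rw [map_sub, sub_eq_zero]
    exact congrFun₂ ((DefCond.OrdEq.of_mapped f (fun _ => rfl) hf).2.2 σ hσ) i j

end Fermat.Agent.OrdinaryGlue
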