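import Fermat.Agent.HeckeRep.Reduced
import Fermat.Agent.Petersson.Semisimple
import Fermat.Agent.HeckeLattice.Lattice
import Fermat.Prelude.Def_CuspForm_HeckeGaloisRepDatum
import Mathlib.RingTheory.SimpleModule.Basic

/-!
# The coefficient ring of a Hecke Galois datum is reduced

The ring is finite free over the discrete valuation ring and becomes, over the fraction field, a
quotient of the semisimple Hecke algebra.
-/

set_option autoImplicit false

open scoped TensorProduct IsMulCommutative

namespace Fermat.Agent.OrdinaryGlue

open IsLocalRing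


/-- A quotient of a reduced Artinian ring is reduced. -/
theorem isReduced_of_surjective_artinian {R R' : Type*} [CommRing R] [CommRing R']
    [IsArtinianRing R]
    [IsReduced R] (f : R →+* R') (hf : Function.Surjective f) : IsReduced R' := by
  have : IsSemisimpleRing R := IsArtinianRing.isSemisimpleRing_of_isReduced R
  have : IsSemisimpleRing R' := f.isSemisimpleRing_of_surjective hf
  infer_instance

variable {N : ℕ} [NeZero N] {S : Set ℕ}
  {O : Type} [CommRing O] [IsDomain O] [IsDiscreteValuationRing O]
  [IsAdicComplete (maximalIdeal O) O]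
  {θ : CuspForm.heckeAlgebra N 2 S →+* ResidueField O}
  {T : Type} [CommRing T] [IsLocalRing T] [IsNoetherianRing T]
  [IsAdicComplete (maximalIdeal T) T] [Algebra O T] [IsLocalHom (algebraMap O T)]
  [Module.Finite O T] [Module.Free O T]

local notation "Λ" => Subtype (· ∈ CuspForm.heckeAlgebra N 2 S)

theorem isReduced_datum_aux (K : Type) [Field K] [Algebra O K] [IsFractionRing O K] [CharZero O]
    (hNS : ∀ q : ℕ, q.Prime → q ∣ N → q ∈ S)
    (H : CuspForm.HeckeGaloisRepDatum N S O θ T) : IsReduced T := by
  have : IsReduced Λ := Petersson.isReduced_heckeAlgebra (N := N) (k := 2) hNS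
  have : Module.Finite ℤ Λ := HeckeLattice.moduleFinite_heckeAlgebra hNS
  have : Module.IsTorsionFree ℤ Λ := inferInstance
  have : Module.Free ℤ Λ := Module.free_of_finite_type_torsion_free'
  have : CharZero K := charZero_of_injective_algebraMap (IsFractionRing.injective O K)
  have : IsReduced (K ⊗[ℤ] Λ) := HeckeRep.isReduced_tensor_field Λ K
  have : IsArtinianRing (K ⊗[ℤ] Λ) := IsArtinianRing.of_finite K _
  let iT : T →ₐ[O] K ⊗[O] T := Algebra.TensorProduct.includeRight
  let f : K ⊗[ℤ] Λ →ₐ[K] K ⊗[O] T :=
    Algebra.TensorProduct.lift (Algebra.ofId K (K ⊗[O] T))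
      { toRingHom := iT.toRingHom.comp H.π, commutes' := fun r => by simp } fun _ _ => mul_comm _ _
  have hπ : ∀ t, iT (H.π t) ∈ f.range := fun t =>
    ⟨(1 : K) ⊗ₜ[ℤ] t, by
      rw [AlgHom.toRingHom_eq_coe, RingHom.coe_coe, Algebra.TensorProduct.lift_tmul, map_one,
        one_mul]
      rfl⟩
  have hT : ∀ x : T, iT x ∈ f.range := fun x => by
    have hx : x ∈ Algebra.adjoin O (Set.range H.π) := H.adjoin_range_π ▸ Algebra.mem_top
    induction hx using Algebra.adjoin_induction with
    | mem y hy => obtain ⟨t, rfl⟩ := hy; exact hπ t
    | algebraMap r =>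
      rw [AlgHom.commutes, IsScalarTower.algebraMap_apply O K (K ⊗[O] T)]
      exact f.range.algebraMap_mem _
    | add y z _ _ hy hz => rw [map_add]; exact add_mem hy hz
    | mul y z _ _ hy hz => rw [map_mul]; exact mul_mem hy hz
  have hf : Function.Surjective f := fun z => by
    have hz : z ∈ f.range := by
      induction z using TensorProduct.induction_on with
      | zero => exact zero_mem _
      | tmul k x =>
        rw [show k ⊗ₜ[O] x = algebraMap K (K ⊗[O] T) k * iT x by
          simp [iT, Algebra.TensorProduct.algebraMap_apply]]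
        exact mul_mem (f.range.algebraMap_mem _) (hT x)
      | add y z hy hz => exact add_mem hy hz
    exact hz
  have : IsReduced (K ⊗[O] T) := isReduced_of_surjective_artinian f.toRingHom hf
  exact isReduced_of_injective iT (Algebra.TensorProduct.includeRight_injective
    (IsFractionRing.injective O K))

/-- **The coefficient ring of a Hecke Galois datum is reduced.** -/
theorem isReduced_datum [CharZero O] (hNS : ∀ q : ℕ, q.Prime → q ∣ N → q ∈ S)
    (H : CuspForm.HeckeGaloisRepDatum N S O θ T) : IsReduced T :=
  isReduced_datum_aux (FractionRing O) hNS H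

end Fermat.Agent.OrdinaryGlue
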