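import Fermat.Agent.OrdinaryGlue.Relation
import Fermat.Agent.OrdinaryGlue.ReducedDatum
import Fermat.Agent.OrdinaryGlue.Points
import Fermat.Agent.CarayolReduction.Extension
import Fermat.Agent.HeckeRep.Points
import Fermat.Prelude.Def_GaloisRep_LocalConditions

/-!
# Ordinarity of Hecke Galois data from vectors on which inertia acts cyclotomically

`OrdinaryVectors N p` asks, for every residually ordinary eigen system of level `N`, for one nonzero
element of the eigen part of the Tate module on which the inertia group of one place over `p` acts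
through the cyclotomic character.  It implies that a Hecke Galois datum of level `N` which is
residually ordinary at `p ∣ N` is ordinary at `p`.
-/

set_option autoImplicit false

noncomputable section

open CongruenceSubgroup ModularCurve Polynomial

namespace Fermat.Agent.OrdinaryGlue

open IsLocalRing CarayolReduction
open Fermat.Agent.Deformation (GQ)

/-- For an eigenform of level `N` with its representation over a complete discrete
valuation ring `A`, residually absolutely irreducible and residually ordinary at `p`, there are a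
finite extension `B`, a place over `p` and a nonzero map `B → T_p J₀(N)` intertwining the Hecke
operators on which inertia at the place acts through the cyclotomic character. -/
def OrdinaryVectors (N : ℕ) [NeZero N] (p : ℕ) : Prop :=
  ∀ (g : CuspForm (Gamma0 N) 2) (hg : g.IsNormalizedEigenform)
    (A : Type) [CommRing A] [IsDomain A] [IsDiscreteValuationRing A]
    [IsAdicComplete (maximalIdeal A) A] [Finite (ResidueField A)] [CharZero A],
    (p : A) ∈ maximalIdeal A →
    ∀ c : (HeckeEigen.eigenChar hg (badSet N)).range →+* A, Function.Injective c →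
    ∀ (S : Finset ℕ), (∀ q : ℕ, q.Prime → q ∣ N → q ∈ S) → p ∈ S →
    ∀ ρ : GaloisRepAdic A,
      (∀ (ℓ : ℕ) (hℓ : ℓ.Prime) (hℓN : ¬ ℓ ∣ N), ℓ ∉ S →
        ∀ P : ValuationSubring (AlgebraicClosure ℚ), P.LiesOverPrime ℓ →
          ∀ φ : GQ, P.IsFrobeniusAt φ ℓ →
            LinearMap.charpoly (ρ.ρ φ) = X ^ 2 - C
              (c ((HeckeEigen.eigenChar hg (badSet N)).rangeRestrict
              (CuspForm.heckeAlgebra.T hℓ hℓN (not_mem_badSet hℓN)))) * X + C (ℓ : A)) →
      ρ.residual.IsAbsolutelyIrreducible →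
      (GaloisRepAdic.ofResidualGaloisRep ρ.residual).IsOrdinaryAt p →
      ρ.DetIsCyclotomic p →
      ∃ (B : Type) (_ : CommRing B) (_ : IsDomain B) (_ : IsDiscreteValuationRing B)
        (_ : IsAdicComplete (maximalIdeal B) B) (_ : Finite (ResidueField B)) (_ : CharZero B)
        (_ : Algebra A B) (_ : IsLocalHom (algebraMap A B)),
        Function.Injective (algebraMap A B) ∧
        ∃ P : ValuationSubring (AlgebraicClosure ℚ), P.LiesOverPrime p ∧
        ∃ f : B →+ tateModule (JZero N) p, f ≠ 0 ∧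
          (∀ (l : ℕ) (hl : l.Prime) (hlN : ¬ l ∣ N) (b : B) (n : ℕ),
            (f (algebraMap A B (c ((HeckeEigen.eigenChar hg (badSet N)).rangeRestrict
                (CuspForm.heckeAlgebra.T hl hlN (not_mem_badSet hlN)))) * b)).1 n =
              heckeOperatorBar N (⟨l, hl⟩ : Nat.Primes) ((f b).1 n)) ∧
          ∀ σ ∈ P.inertiaSubgroupIn ℚ, ∀ (b : B) (n k : ℕ),
            (∀ μ : AlgebraicClosure ℚ, μ ^ p ^ n = 1 → σ μ = μ ^ k) →
              σ • (f b).1 n = k • (f b).1 n

variable {p : ℕ} [Fact p.Prime] {N : ℕ} [NeZero N] {S : Finset ℕ}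
  {𝒪 : Type} [CommRing 𝒪] [IsDomain 𝒪] [IsDiscreteValuationRing 𝒪]
  [IsAdicComplete (maximalIdeal 𝒪) 𝒪]
  {θ : CuspForm.heckeAlgebra N 2 (↑S : Set ℕ) →+* ResidueField 𝒪}
  {T : Type} [CommRing T] [IsLocalRing T] [IsNoetherianRing T]
  [IsAdicComplete (maximalIdeal T) T] [Algebra 𝒪 T] [IsLocalHom (algebraMap 𝒪 T)]
  [Module.Finite 𝒪 T] [Module.Free 𝒪 T]

local notation "F" => AlgebraicClosure (FractionRing 𝒪)

/-- **A residually ordinary Hecke Galois datum is ordinary at `p`**, given `OrdinaryVectors`. -/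
theorem isOrdinaryAt_of_ordinaryVectors [Finite (ResidueField 𝒪)] [CharZero 𝒪]
    (hvec : OrdinaryVectors N p) (hp2 : p ≠ 2) (hp𝒪 : (p : 𝒪) ∈ maximalIdeal 𝒪) (hpN : p ∣ N)
    (hNS : ∀ q : ℕ, q.Prime → q ∣ N → q ∈ S)
    (H : CuspForm.HeckeGaloisRepDatum N (↑S : Set ℕ) 𝒪 θ T)
    (hres : (GaloisRepAdic.ofResidualGaloisRep H.ρ.residual).IsOrdinaryAt p) :
    H.ρ.IsOrdinaryAt p := by
  have hp : p.Prime := Fact.out
  have hpS : p ∈ S := hNS p hp hpN
  have : IsReduced T := isReduced_datum (fun q hq h => Finset.mem_coe.2 (hNS q hq h)) H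
  obtain ⟨b⟩ := DefCond.exists_basis H.ρ
  have hdet : H.ρ.DetIsCyclotomic p := by
    refine Oddness.detIsCyclotomic_of_frobenius hp ?_ (HeckeRep.frobGenerates S)
      (Finset.mem_coe.2 hpS) H.ρ fun ℓ hℓ hℓS P hP φ hφ => ?_
    · rw [← map_natCast (algebraMap 𝒪 T)]
      exact map_nonunit (algebraMap 𝒪 T) _ hp𝒪
    · obtain ⟨-, hd⟩ := HeckeRep.trace_det_of_charpoly
        ((RepTheory.charpoly_matRep b H.ρ.ρ φ).trans
          (H.charpoly_frob ℓ hℓ (fun h => hℓS (hNS ℓ hℓ h)) hℓS P hP φ hφ))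
      rwa [RepTheory.det_matRep] at hd
  rw [DefCond.isOrdinaryAt_iff hp2 hdet b]
  intro Q hQ σ₀ hσ₀ _
  refine ordEq_of_separating fun x hx => ?_
  obtain ⟨j, hj⟩ := HeckeRep.exists_point_ne_zero 𝒪 hx
  obtain ⟨L, hL, hjL⟩ := HeckeRep.exists_field_range 𝒪 j
  let O' := integralClosure 𝒪 L
  have := RepTheory.isLocalRing_integralClosure 𝒪 L
  have := RepTheory.isDiscreteValuationRing_integralClosure 𝒪 L
  have := RepTheory.isAdicComplete_integralClosure 𝒪 L
  have := RepTheory.finite_residueField_integralClosure 𝒪 L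
  have := RepTheory.charZero_integralClosure 𝒪 L
  have := RepTheory.finite_integralClosure 𝒪 L
  have := RepTheory.isLocalHom_integralClosure 𝒪 L
  let ψ : T →ₐ[𝒪] O' := HeckeRep.toIC 𝒪 j L hjL
  have hψx : ψ x ≠ 0 := fun h => hj (by
    rw [← HeckeRep.coe_toIC 𝒪 j L hjL x]
    exact congrArg (fun z : O' => ((z : L) : F)) h)
  let χ : CuspForm.heckeAlgebra N 2 (↑S : Set ℕ) →+* O' := ψ.toRingHom.comp H.π
  have : (RingHom.ker χ).IsPrime := RingHom.ker_isPrime χ
  obtain ⟨g, hg, hker⟩ := HeckeEigen.exists_eigenform_ker_le (RingHom.ker χ)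
  let chig := HeckeEigen.eigenChar hg (↑S : Set ℕ)
  let iota : chig.range →+* O' := RingHom.liftOfSurjective chig.rangeRestrict
    chig.rangeRestrict_surjective ⟨χ, fun t ht => hker (by
      rw [RingHom.mem_ker] at ht ⊢
      exact congrArg Subtype.val ht)⟩
  have hiota : ∀ t, iota (chig.rangeRestrict t) = χ t := fun t =>
    RingHom.liftOfRightInverse_comp_apply _ _ _ _ t
  obtain ⟨A, _, _, _, _, _, _, algA, _, locA, hinjA, c, hc, hcT⟩ :=
    exists_extension hg hNS chig
      (fun l hl hlN hlS => HeckeEigen.eigenChar_T hg hl hlN hlS) O' iota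
  let φA : T →+* A := (algebraMap O' A).comp ψ.toRingHom
  have : IsLocalHom ψ.toRingHom := HeckeRep.isLocalHom_algHom ψ
  have hφA : IsLocalHom φA := RingHom.isLocalHom_comp _ _
  let ρA := H.ρ.baseChangeAlong φA hφA
  have hfrobA : ∀ (ℓ : ℕ) (hℓ : ℓ.Prime) (hℓN : ¬ ℓ ∣ N), ℓ ∉ S →
      ∀ P : ValuationSubring (AlgebraicClosure ℚ), P.LiesOverPrime ℓ →
        ∀ φ : GQ, P.IsFrobeniusAt φ ℓ →
          LinearMap.charpoly (ρA.ρ φ) = X ^ 2 - C
            (c ((HeckeEigen.eigenChar hg (badSet N)).rangeRestrict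
            (CuspForm.heckeAlgebra.T hℓ hℓN (not_mem_badSet hℓN)))) * X + C (ℓ : A) := by
    intro ℓ hℓ hℓN hℓS P hP φ hφ
    rw [← RepTheory.charpoly_matRep (DefCond.bcBasis H.ρ b φA hφA) ρA.ρ φ,
      show RepTheory.matRep (DefCond.bcBasis H.ρ b φA hφA) ρA.ρ φ =
        (RepTheory.matRep b H.ρ.ρ φ).map φA from DefCond.repMat_bcBasis H.ρ b φA hφA φ,
      Matrix.charpoly_map, RepTheory.charpoly_matRep,
      H.charpoly_frob ℓ hℓ hℓN (by simpa using hℓS) P hP φ hφ,
      hcT ℓ hℓ hℓN (by simpa using hℓS), RingHom.comp_apply iota, hiota]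
    simp only [Polynomial.map_add, Polynomial.map_sub, Polynomial.map_mul, Polynomial.map_pow,
      Polynomial.map_X, Polynomial.map_C, map_natCast, Polynomial.map_natCast]
    rfl
  have hpA : (p : A) ∈ maximalIdeal A := by
    rw [← map_natCast φA]
    exact map_nonunit φA _ (hdet.1)
  have habsA := residual_absIrr_baseChangeAlong φA hφA H.ρ H.residual_absIrr
  have hdetA := DefCond.det_map φA hφA hdet
  obtain ⟨B, _, _, _, _, _, _, algB, locB, hinjB, P, hP, f, hf, hfT, hfI⟩ :=
    hvec g hg A hpA c hc S hNS hpS ρA hfrobA habsA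
      (residual_ordinary_baseChangeAlong hp2 φA hφA H.ρ hdet hres) hdetA
  let φB : T →+* B := (algebraMap A B).comp φA
  have hφB : IsLocalHom φB := RingHom.isLocalHom_comp _ _
  classical
  let a : ℕ → B := fun l => if h : l.Prime ∧ ¬ l ∣ N then algebraMap A B
    (c ((HeckeEigen.eigenChar hg (badSet N)).rangeRestrict
      (CuspForm.heckeAlgebra.T h.1 h.2 (not_mem_badSet h.2)))) else 0
  have ha : ∀ (l : ℕ) (hl : l.Prime) (hlN : ¬ l ∣ N), a l = algebraMap A B
      (c ((HeckeEigen.eigenChar hg (badSet N)).rangeRestrict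
        (CuspForm.heckeAlgebra.T hl hlN (not_mem_badSet hlN)))) := fun l hl hlN => by
    simp only [a, dif_pos (And.intro hl hlN)]
  let f' : EigenMap N p a := ⟨f, fun l hl hlN y n => by rw [ha l hl hlN]; exact hfT l hl hlN y n⟩
  have hf' : f' ≠ 0 := fun h => hf (congrArg EigenMap.toHom h)
  let ρB := H.ρ.baseChangeAlong φB hφB
  have hρB : ∀ ℓ : ℕ, ℓ.Prime → ℓ ∉ S → ∀ P : ValuationSubring (AlgebraicClosure ℚ),
      P.LiesOverPrime ℓ → ∀ φ : GQ, P.IsFrobeniusAt φ ℓ →
        LinearMap.charpoly (ρB.ρ φ) = X ^ 2 - C (a ℓ) * X + C (ℓ : B) := by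
    intro ℓ hℓ hℓS P hP φ hφ
    have hℓN : ¬ ℓ ∣ N := fun h => hℓS (hNS ℓ hℓ h)
    have hA' := hfrobA ℓ hℓ hℓN hℓS P hP φ hφ
    rw [← RepTheory.charpoly_matRep (DefCond.bcBasis H.ρ b φA hφA) ρA.ρ φ,
      show RepTheory.matRep (DefCond.bcBasis H.ρ b φA hφA) ρA.ρ φ =
        (RepTheory.matRep b H.ρ.ρ φ).map φA from DefCond.repMat_bcBasis H.ρ b φA hφA φ] at hA'
    rw [← RepTheory.charpoly_matRep (DefCond.bcBasis H.ρ b φB hφB) ρB.ρ φ,
      show RepTheory.matRep (DefCond.bcBasis H.ρ b φB hφB) ρB.ρ φ =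
        ((RepTheory.matRep b H.ρ.ρ φ).map φA).map (algebraMap A B) from
        (DefCond.repMat_bcBasis H.ρ b φB hφB φ).trans (Matrix.map_map ..).symm,
      Matrix.charpoly_map, hA', ha ℓ hℓ hℓN]
    simp only [Polynomial.map_add, Polynomial.map_sub, Polynomial.map_mul, Polynomial.map_pow,
      Polynomial.map_X, Polynomial.map_C, map_natCast, Polynomial.map_natCast]
  have hord := ordEq_of_eigenVector (N := N) (p := p) (a := a) hp2
    (by rw [← map_natCast φB]; exact map_nonunit φB _ hdet.1) (Nat.cast_ne_zero.2 hp.ne_zero) ρB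
    (residual_absIrr_baseChangeAlong φB hφB H.ρ H.residual_absIrr)
    (DefCond.det_map φB hφB hdet) S hNS hpS hρB hP f' hf' hfI (DefCond.bcBasis H.ρ b φB hφB) hQ hσ₀
  refine ⟨B, inferInstance, φB, fun h => hψx ?_, ?_⟩
  · exact hinjA ((hinjB (h.trans (map_zero _).symm : _ = algebraMap A B 0)).trans (map_zero _).symm)
  · rw [show (fun σ => (DefCond.repMat H.ρ b σ).map φB) =
      ⇑(DefCond.repMat ρB (DefCond.bcBasis H.ρ b φB hφB)) from
        funext fun σ => (DefCond.repMat_bcBasis H.ρ b φB hφB σ).symm]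
    exact hord

end Fermat.Agent.OrdinaryGlue
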