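import Fermat.Agent.TateExport.Maps
import Fermat.Agent.JacCompare.Faithful
import Fermat.Agent.EisensteinDescent.HeckeGalois

/-!
# The eigen part of the Tate module of `J₀(N)` and the Frobenius relation

For a system `a` of eigenvalues in `B`, the additive maps `B → T_p J₀(N)` intertwining
multiplication by `a l` with `T_l` form a torsion free `B`-module with an action of Galois, on which
a Frobenius at `l ∤ N p` satisfies `F² - a l F + l = 0`.
-/

set_option autoImplicit false

noncomputable section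

open CongruenceSubgroup ModularCurve
open scoped MatrixGroups

namespace Fermat.Agent.OrdinaryGlue

open Fermat.Agent.CarayolReduction (tateModule)
open HeckeDatum (ParChar)

local notation "Gal" => AlgebraicClosure ℚ ≃ₐ[ℚ] AlgebraicClosure ℚ

variable {N : ℕ} [NeZero N] {p : ℕ} [Fact p.Prime]

/-- The Eichler–Shimura relation on the `p`-power torsion, up to a bounded multiple. -/
theorem exists_frobenius_torsion (N : ℕ) [NeZero N] (p : ℕ) [Fact p.Prime] :
    ∃ m : ℕ, m ≠ 0 ∧ ∀ (k ℓ : ℕ) (hℓ : ℓ.Prime), ¬ ℓ ∣ N → ℓ ≠ p →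
      ∀ A : ValuationSubring (AlgebraicClosure ℚ), A.LiesOverPrime ℓ →
        ∀ φ : Gal, A.IsFrobeniusAt φ ℓ → ∀ x : JZero N, p ^ k • x = 0 →
          m • (φ • φ • x - heckeOperatorBar N (⟨ℓ, hℓ⟩ : Nat.Primes) (φ • x) + ℓ • x) = 0 := by
  have hp : p.Prime := Fact.out
  obtain ⟨G, d, Φ, hd, -, hgal, hhecke, hker⟩ := TateExport.exists_hasTateMaps N hp
  obtain ⟨m, hm, himg⟩ := JacCompare.exists_nsmul_mem_image (N := N) hd
  refine ⟨m, hm, fun k ℓ hℓ hℓN hℓp A hA φ hφ x hx => ?_⟩
  have : NeZero (p ^ k) := ⟨pow_ne_zero _ hp.ne_zero⟩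
  have := Fact.mk hℓ
  obtain ⟨χ, hχ⟩ := himg _ (Φ k) (hker k) x hx
  let η : ParChar N (p ^ k) := G.rep k φ (G.rep k φ χ) + ℓ • χ
  have hη : HeckeLattice.transfer hℓN (G.rep k φ χ).1 = η.1 := by
    have h0 := G.frobenius k ℓ hℓ hℓN hℓp A hA φ hφ χ
    rw [sub_add_eq_add_sub, sub_eq_zero] at h0
    exact h0.symm
  have hT := hhecke k ℓ hℓ hℓN _ η hη
  have hs : ∀ (n : ℕ) (z : JZero N), φ • (n • z) = n • (φ • z) := fun n z =>
    map_nsmul (DistribSMul.toAddMonoidHom (JZero N) φ) n z
  have e1 : Φ k η = m • (φ • φ • x) + m • (ℓ • x) := by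
    rw [map_add, map_nsmul, hgal, hgal, hχ, hs, hs, smul_comm ℓ m]
  rw [hgal, hχ, hs, map_nsmul, e1] at hT
  rw [nsmul_add, nsmul_sub, sub_add_eq_add_sub, sub_eq_zero]
  exact hT

/-- Galois on the Tate module. -/
def galTate (σ : Gal) : tateModule (JZero N) p →+ tateModule (JZero N) p :=
  CarayolReduction.tateMap (DistribSMul.toAddMonoidHom (JZero N) σ)

omit [NeZero N] [Fact p.Prime] in
theorem galTate_mul (σ τ : Gal) :
    (galTate (N := N) (p := p) (σ * τ)) = (galTate σ).comp (galTate τ) :=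
  AddMonoidHom.ext fun x => Subtype.ext (funext fun n => mul_smul σ τ (x.1 n))

omit [NeZero N] [Fact p.Prime] in
theorem galTate_one : galTate (N := N) (p := p) 1 = AddMonoidHom.id _ :=
  AddMonoidHom.ext fun x => Subtype.ext (funext fun n => one_smul Gal (x.1 n))

variable {B : Type} [CommRing B]

/-- The maps intertwining multiplication by the eigenvalues with the Hecke operators. -/
structure EigenMap (N : ℕ) [NeZero N] (p : ℕ) (a : ℕ → B) where
  /-- The underlying additive map. -/
  toHom : B →+ tateModule (JZero N) p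
  /-- It intertwines. -/
  hecke : ∀ (l : ℕ) (hl : l.Prime), ¬ l ∣ N → ∀ (b : B) (n : ℕ),
    (toHom (a l * b)).1 n = heckeOperatorBar N (⟨l, hl⟩ : Nat.Primes) ((toHom b).1 n)

variable (a : ℕ → B)

omit [Fact p.Prime] in
theorem toHom_injective :
    Function.Injective (EigenMap.toHom : EigenMap N p a → B →+ tateModule (JZero N) p) := by
  rintro ⟨f, hf⟩ ⟨g, hg⟩ rfl
  rfl

instance : Zero (EigenMap N p a) :=
  ⟨⟨0, fun l hl _ _ _ => (map_zero (heckeOperatorBar N (⟨l, hl⟩ : Nat.Primes))).symm⟩⟩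

instance : Add (EigenMap N p a) :=
  ⟨fun f g => ⟨f.toHom + g.toHom, fun l hl hlN b n => by
    show (f.toHom _).1 n + (g.toHom _).1 n =
      heckeOperatorBar N _ ((f.toHom b).1 n + (g.toHom b).1 n)
    rw [map_add, f.hecke l hl hlN, g.hecke l hl hlN]⟩⟩

instance : Neg (EigenMap N p a) :=
  ⟨fun f => ⟨-f.toHom, fun l hl hlN b n => by
    show -(f.toHom _).1 n = heckeOperatorBar N _ (-(f.toHom b).1 n)
    rw [map_neg, f.hecke l hl hlN]⟩⟩

instance : Sub (EigenMap N p a) :=
  ⟨fun f g => ⟨f.toHom - g.toHom, fun l hl hlN b n => by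
    show (f.toHom _).1 n - (g.toHom _).1 n =
      heckeOperatorBar N _ ((f.toHom b).1 n - (g.toHom b).1 n)
    rw [map_sub, f.hecke l hl hlN, g.hecke l hl hlN]⟩⟩

instance : SMul ℕ (EigenMap N p a) :=
  ⟨fun k f => ⟨k • f.toHom, fun l hl hlN b n => by
    show k • (f.toHom _).1 n = heckeOperatorBar N _ (k • (f.toHom b).1 n)
    rw [map_nsmul, f.hecke l hl hlN]⟩⟩

instance : SMul ℤ (EigenMap N p a) :=
  ⟨fun k f => ⟨k • f.toHom, fun l hl hlN b n => by
    show k • (f.toHom _).1 n = heckeOperatorBar N _ (k • (f.toHom b).1 n)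
    rw [map_zsmul, f.hecke l hl hlN]⟩⟩

instance instAddCommGroupEigenMap : AddCommGroup (EigenMap N p a) :=
  (toHom_injective a).addCommGroup EigenMap.toHom rfl (fun _ _ => rfl) (fun _ => rfl)
    (fun _ _ => rfl) (fun _ _ => rfl) fun _ _ => rfl

/-- Multiplication in the source. -/
instance : SMul B (EigenMap N p a) :=
  ⟨fun c f => ⟨f.toHom.comp (AddMonoidHom.mulLeft c), fun l hl hlN b n => by
    show (f.toHom (c * (a l * b))).1 n = heckeOperatorBar N _ ((f.toHom (c * b)).1 n)
    rw [mul_left_comm]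
    exact f.hecke l hl hlN _ n⟩⟩

omit [Fact p.Prime] in
@[simp] theorem smul_toHom (c : B) (f : EigenMap N p a) (b : B) :
    (c • f).toHom b = f.toHom (c * b) := rfl

instance instModuleEigenMap : Module B (EigenMap N p a) where
  one_smul f := toHom_injective a (AddMonoidHom.ext fun b => by simp)
  mul_smul c c' f := toHom_injective a (AddMonoidHom.ext fun b => by
    simp [mul_comm c c', mul_assoc])
  smul_zero c := toHom_injective a (AddMonoidHom.ext fun b => rfl)
  smul_add c f g := toHom_injective a (AddMonoidHom.ext fun b => rfl)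
  add_smul c c' f := toHom_injective a (AddMonoidHom.ext fun b => by
    show f.toHom ((c + c') * b) = f.toHom (c * b) + f.toHom (c' * b)
    rw [add_mul, map_add])
  zero_smul f := toHom_injective a (AddMonoidHom.ext fun b => by
    show f.toHom (0 * b) = 0
    rw [zero_mul, map_zero])

/-- The action of Galois on the eigen part. -/
def galEigen : Gal →* Module.End B (EigenMap N p a) where
  toFun σ :=
    { toFun := fun f => ⟨(galTate σ).comp f.toHom, fun l hl hlN b n => by
        show σ • (f.toHom (a l * b)).1 n = heckeOperatorBar N _ (σ • (f.toHom b).1 n)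
        rw [f.hecke l hl hlN, EisensteinDescent.galois_smul_heckeOperatorBar]⟩
      map_add' := fun f g => toHom_injective a (AddMonoidHom.ext fun b => map_add (galTate σ) _ _)
      map_smul' := fun c f => rfl }
  map_one' := LinearMap.ext fun f => toHom_injective a (AddMonoidHom.ext fun b => by
    show galTate 1 (f.toHom b) = f.toHom b
    rw [galTate_one]
    rfl)
  map_mul' σ τ := LinearMap.ext fun f => toHom_injective a (AddMonoidHom.ext fun b => by
    show galTate (σ * τ) (f.toHom b) = galTate σ (galTate τ (f.toHom b))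
    rw [galTate_mul]
    rfl)

omit [Fact p.Prime] in
/-- Elements of the eigen part are determined by their values at every level. -/
theorem eigenMap_ext {f g : EigenMap N p a} (h : ∀ b n, (f.toHom b).1 n = (g.toHom b).1 n) :
    f = g :=
  toHom_injective a (AddMonoidHom.ext fun b => Subtype.ext (funext fun n => h b n))

omit [Fact p.Prime] in
/-- The eigen part is torsion free. -/
theorem eigenMap_torsionFree [IsDomain B] [IsDiscreteValuationRing B]
    (hp : (p : B) ∈ IsLocalRing.maximalIdeal B) (c : B) (f : EigenMap N p a) (h : c • f = 0) :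
    c = 0 ∨ f = 0 :=
  or_iff_not_imp_left.mpr fun hc => toHom_injective a
    (CarayolReduction.map_eq_zero_of_smul hp f.toHom hc fun v =>
      DFunLike.congr_fun (congrArg EigenMap.toHom h) v)

/-- The Frobenius relation on a Tate vector. -/
theorem galTate_frobenius {ℓ : ℕ} (hℓ : ℓ.Prime) (hℓN : ¬ ℓ ∣ N) (hℓp : ℓ ≠ p)
    {A : ValuationSubring (AlgebraicClosure ℚ)} (hA : A.LiesOverPrime ℓ) {φ : Gal}
    (hφ : A.IsFrobeniusAt φ ℓ) (x y : tateModule (JZero N) p)
    (hy : ∀ n, y.1 n = heckeOperatorBar N (⟨ℓ, hℓ⟩ : Nat.Primes) (x.1 n)) :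
    galTate φ (galTate φ x) - galTate φ y + ℓ • x = 0 := by
  obtain ⟨m, hm, hrel⟩ := exists_frobenius_torsion N p
  refine CarayolReduction.tateModule_eq_zero_of_bounded Fact.out hm fun n => ?_
  have h := hrel n ℓ hℓ hℓN hℓp A hA φ hφ _ (CarayolReduction.tateModule_pow_smul x n)
  rw [← EisensteinDescent.galois_smul_heckeOperatorBar, ← hy] at h
  exact h

/-- The Frobenius relation on the eigen part. -/
theorem galEigen_frobenius {ℓ : ℕ} (hℓ : ℓ.Prime) (hℓN : ¬ ℓ ∣ N) (hℓp : ℓ ≠ p)
    {A : ValuationSubring (AlgebraicClosure ℚ)} (hA : A.LiesOverPrime ℓ) {φ : Gal}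
    (hφ : A.IsFrobeniusAt φ ℓ) :
    galEigen (N := N) (p := p) a φ * galEigen a φ - a ℓ • galEigen a φ +
      (ℓ : B) • (1 : Module.End B (EigenMap N p a)) = 0 := by
  refine LinearMap.ext fun f => toHom_injective a (AddMonoidHom.ext fun b => ?_)
  have h := galTate_frobenius hℓ hℓN hℓp hA hφ (f.toHom b) (f.toHom (a ℓ * b)) (f.hecke ℓ hℓ hℓN b)
  rw [← map_nsmul, nsmul_eq_mul] at h
  exact h

end Fermat.Agent.OrdinaryGlue
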