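import Mathlib.LinearAlgebra.Matrix.Charpoly.Coeff
import Mathlib.LinearAlgebra.Matrix.Trace
import Mathlib.Algebra.MonoidAlgebra.Basic
import Mathlib.RingTheory.Ideal.Quotient.Operations

/-!
# Modules with the quadratic relations of a full two-dimensional representation

Let `B` be a domain with `2 ≠ 0`, `M : G →* M₂(B)` with full image and `R` an action of `G` on a
torsion free `B`-module `E` with `R g + det (M g) • R g⁻¹ = tr (M g)` for all `g`.  Then `R` factors
through `M` (Boston–Lenstra–Ribet).
-/

set_option autoImplicit false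

namespace Fermat.Agent.OrdinaryGlue

open Matrix

variable {B : Type*} [CommRing B] {G : Type*} [Group G] {E : Type*} [AddCommGroup E] [Module B E]

local notation "M₂" => Matrix (Fin 2) (Fin 2) B
local notation "BG" => MonoidAlgebra B G

variable (M : G →* Matrix (Fin 2) (Fin 2) B) (R : G →* Module.End B E)

/-- `M`, extended linearly. -/
noncomputable def matLin : BG →ₐ[B] M₂ := MonoidAlgebra.lift B M₂ G M

/-- `R`, extended linearly. -/
noncomputable def actLin : BG →ₐ[B] Module.End B E := MonoidAlgebra.lift B (Module.End B E) G R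

/-- The adjoint of `R`. -/
noncomputable def adjLin : BG →ₗ[B] Module.End B E :=
  (Matrix.traceLinearMap (Fin 2) B B ∘ₗ (matLin M).toLinearMap).smulRight (1 : Module.End B E) -
    (actLin R).toLinearMap

variable {M R}

theorem adjLin_apply (x : BG) :
    adjLin M R x = (matLin M x).trace • (1 : Module.End B E) - actLin R x := rfl

theorem adjLin_of
    (hrel : ∀ g, R g + (M g).det • R g⁻¹ = (M g).trace • (1 : Module.End B E)) (g : G) :
    adjLin M R (MonoidAlgebra.of B G g) = (M g).det • R g⁻¹ := by
  rw [adjLin_apply, matLin, actLin, MonoidAlgebra.lift_of, MonoidAlgebra.lift_of, ← hrel g,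
    add_sub_cancel_left]

variable (hrel : ∀ g, R g + (M g).det • R g⁻¹ = (M g).trace • (1 : Module.End B E))

include hrel

theorem adjLin_mul (x y : BG) : adjLin M R (x * y) = adjLin M R y * adjLin M R x := by
  induction x using MonoidAlgebra.induction_on with
  | of g =>
    induction y using MonoidAlgebra.induction_on with
    | of h =>
      rw [← map_mul, adjLin_of hrel, adjLin_of hrel, adjLin_of hrel, map_mul M, det_mul,
        _root_.mul_inv_rev, map_mul, smul_mul_smul_comm, mul_comm (M g).det]
    | add a b ha hb => rw [mul_add, map_add, map_add, ha, hb, add_mul]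
    | smul r a ha => rw [mul_smul_comm, map_smul, map_smul, ha, smul_mul_assoc]
  | add a b ha hb => rw [add_mul, map_add, map_add, ha, hb, mul_add]
  | smul r a ha => rw [smul_mul_assoc, map_smul, map_smul, ha, mul_smul_comm]

theorem actLin_mul_ker {k : BG} (hk : matLin M k = 0) (a : BG) :
    actLin R a * actLin R k = actLin R k * adjLin M R a := by
  have hs : ∀ z, matLin M z = 0 → adjLin M R z = -actLin R z := fun z hz => by
    rw [adjLin_apply, hz, trace_zero, zero_smul, zero_sub]
  have h := adjLin_mul hrel a k
  rw [hs _ (by rw [map_mul, hk, mul_zero]), hs k hk, map_mul, neg_mul, neg_inj] at h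
  exact h

theorem actLin_comm_mul_ker {k : BG} (hk : matLin M k = 0) (a b : BG) :
    actLin R (a * b - b * a) * actLin R k = 0 := by
  have h1 : ∀ u v : BG, actLin R (u * v) * actLin R k =
      actLin R k * (adjLin M R u * adjLin M R v) := fun u v => by
    rw [map_mul, mul_assoc, actLin_mul_ker hrel hk v, ← mul_assoc, actLin_mul_ker hrel hk u,
      mul_assoc]
  have h2 : ∀ u v : BG, actLin R (u * v) * actLin R k =
      actLin R k * (adjLin M R v * adjLin M R u) := fun u v => by
    rw [actLin_mul_ker hrel hk (u * v), adjLin_mul hrel]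
  rw [map_sub, sub_mul, h1 a b, h2 b a, sub_self]

theorem actLin_eq_zero (hfull : Function.Surjective (matLin M))
    (h2 : ∀ x : E, (2 : B) • x = 0 → x = 0) {k : BG} (hk : matLin M k = 0) :
    actLin R k = 0 := by
  obtain ⟨a, ha⟩ := hfull !![0, 1; 0, 0]
  obtain ⟨b, hb⟩ := hfull !![0, 0; 1, 0]
  set z := a * b - b * a
  have hc : matLin M (z * z) = 1 := by
    simp only [z, map_mul, map_sub, ha, hb]
    ext i j
    fin_cases i <;> fin_cases j <;> simp [Matrix.mul_apply, Fin.sum_univ_two]
  set c := z * z - 1
  have hck : matLin M c = 0 := by simp only [c, map_sub, map_one, hc, sub_self]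
  have hzero : ∀ w, matLin M w = 0 → actLin R (z * z) * actLin R w = 0 := fun w hw => by
    rw [map_mul, mul_assoc, actLin_comm_mul_ker hrel hw, mul_zero]
  have hsq : actLin R c * actLin R c = 0 := by
    have h := actLin_mul_ker hrel hck c
    rw [adjLin_apply, hck, trace_zero, zero_smul, zero_sub, mul_neg] at h
    refine LinearMap.ext fun x => h2 _ ?_
    have := LinearMap.congr_fun h x
    rw [two_smul]
    exact eq_neg_iff_add_eq_zero.mp this
  have hone : (1 + actLin R c) * actLin R k = 0 := by
    have h := hzero k hk
    rw [show z * z = 1 + c by simp [c], map_add, map_one] at h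
    exact h
  calc actLin R k
      = ((1 - actLin R c) * (1 + actLin R c)) * actLin R k := by
        rw [show (1 - actLin R c) * (1 + actLin R c) = 1 - actLin R c * actLin R c by
          rw [sub_mul, one_mul, mul_add, mul_one]; abel,
          hsq, sub_zero, one_mul]
    _ = 0 := by rw [mul_assoc, hone, mul_zero]

/-- The action factors through the matrices. -/
theorem exists_factor (hfull : Submodule.span B (Set.range M) = ⊤)
    (h2 : ∀ x : E, (2 : B) • x = 0 → x = 0) :
    ∃ Θ : M₂ →ₐ[B] Module.End B E, ∀ g, Θ (M g) = R g := by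
  have hsurj : Function.Surjective (matLin M) := fun A => by
    have hA : A ∈ Submodule.span B (Set.range M) := hfull ▸ Submodule.mem_top
    have hle : Submodule.span B (Set.range M) ≤ (matLin M).toLinearMap.range := by
      rw [Submodule.span_le]
      rintro _ ⟨g, rfl⟩
      exact ⟨MonoidAlgebra.of B G g, MonoidAlgebra.lift_of _ _⟩
    exact hle hA
  let σ := Function.surjInv hsurj
  have hσ : ∀ A, matLin M (σ A) = A := Function.surjInv_eq hsurj
  have hwd : ∀ x y, matLin M x = matLin M y → actLin R x = actLin R y := fun x y h => by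
    have := actLin_eq_zero hrel hsurj h2 (k := x - y) (by rw [map_sub, h, sub_self])
    rwa [map_sub, sub_eq_zero] at this
  refine ⟨AlgHom.ofLinearMap
    { toFun := fun A => actLin R (σ A)
      map_add' := fun A A' => by rw [← map_add]; exact hwd _ _ (by rw [map_add, hσ, hσ, hσ])
      map_smul' := fun r A => by
        rw [RingHom.id_apply, ← map_smul]; exact hwd _ _ (by rw [map_smul, hσ, hσ]) }
    ((hwd _ 1 (by rw [hσ, map_one])).trans (map_one _))
    (fun A A' => (hwd _ (σ A * σ A') (by rw [map_mul, hσ, hσ, hσ])).trans (map_mul _ _ _)),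
    fun g => ?_⟩
  have h1 : matLin M (MonoidAlgebra.of B G g) = M g := MonoidAlgebra.lift_of M g
  have h2 : actLin R (MonoidAlgebra.of B G g) = R g := MonoidAlgebra.lift_of R g
  rw [← h2]
  exact hwd _ _ (by rw [hσ, h1])

end Fermat.Agent.OrdinaryGlue
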