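import Fermat.Agent.DefCond.Ordinary
import Fermat.Agent.GaloisBasics.Galois

/-!
# Ordinarity equations from one vector

If a module `E` over a domain `B` is acted on through `M : Γ → GL₂(B)` and has a nonzero vector on
which the inertia group of one place over `p` acts by `det M`, then `M` satisfies the equations of
ordinarity at every place over `p`.
-/

set_option autoImplicit false

namespace Fermat.Agent.OrdinaryGlue

open Matrix
open scoped Pointwise
open Fermat.Agent.Deformation (GQ)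
open Fermat.Agent.GaloisBasics

variable {B : Type} [CommRing B] [IsDomain B]

omit [IsDomain B] in
theorem det_add_fin_two (X Y : Matrix (Fin 2) (Fin 2) B) :
    (X + Y).det = X.det + Y.det + (Y.adjugate * X).trace := by
  simp only [Matrix.det_fin_two, Matrix.adjugate_fin_two, Matrix.trace_fin_two, Matrix.mul_apply,
    Matrix.add_apply, Fin.sum_univ_two, Matrix.of_apply, Matrix.cons_val', Matrix.cons_val_zero,
    Matrix.cons_val_one, Matrix.empty_val', Matrix.cons_val_fin_one]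
  ring

theorem adjugate_of_det_sub {A : Matrix (Fin 2) (Fin 2) B} {d : B} (hd : d ≠ 0)
    (hA : (A - d • 1).det = 0) (hdet : A.det = d) :
    (A - 1).det = 0 ∧ (A - 1).trace • (1 : Matrix (Fin 2) (Fin 2) B) = A - 1 + (A - 1).adjugate ∧
      A - 1 = -(A - d • 1).adjugate := by
  have ht : A 0 0 + A 1 1 = d + 1 := by
    apply mul_left_cancel₀ hd
    simp [Matrix.det_fin_two] at hA hdet
    linear_combination -hA + hdet
  refine ⟨?_, ?_, ?_⟩
  · simp [Matrix.det_fin_two] at hA hdet ⊢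
    linear_combination hdet - ht
  · ext i j
    fin_cases i <;> fin_cases j <;> simp [Matrix.adjugate_fin_two, Matrix.trace_fin_two] <;> ring
  · ext i j
    fin_cases i <;> fin_cases j <;> simp [Matrix.adjugate_fin_two]
    · linear_combination ht
    · linear_combination ht

variable {E : Type*} [AddCommGroup E] [Module B E]
  (htf : ∀ (c : B) (x : E), c • x = 0 → c = 0 ∨ x = 0)
  (Θ : Matrix (Fin 2) (Fin 2) B →ₐ[B] Module.End B E)

include htf

omit [IsDomain B] in
theorem det_eq_zero_of_kills {f₀ : E} (hf₀ : f₀ ≠ 0) {A : Matrix (Fin 2) (Fin 2) B}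
    (hA : Θ A f₀ = 0) : A.det = 0 := by
  have h : Θ (A.adjugate * A) f₀ = 0 := by rw [map_mul, Module.End.mul_apply, hA, map_zero]
  rw [adjugate_mul, map_smul, map_one, LinearMap.smul_apply, Module.End.one_apply] at h
  exact (htf _ _ h).resolve_right hf₀

omit [IsDomain B] in
theorem mul_adjugate_eq_zero_of_kills {f₀ : E} (hf₀ : f₀ ≠ 0) {A A' : Matrix (Fin 2) (Fin 2) B}
    (hA : Θ A f₀ = 0) (hA' : Θ A' f₀ = 0) : A * A'.adjugate = 0 := by
  have key : ∀ C : Matrix (Fin 2) (Fin 2) B, (A * A'.adjugate * C).trace = 0 := by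
    intro C
    have h := det_eq_zero_of_kills htf Θ hf₀ (A := C * A + A') (by
      rw [map_add, LinearMap.add_apply, map_mul, Module.End.mul_apply, hA, map_zero, hA', add_zero])
    rw [det_add_fin_two, det_mul, det_eq_zero_of_kills htf Θ hf₀ hA,
      det_eq_zero_of_kills htf Θ hf₀ hA', mul_zero, zero_add, zero_add] at h
    rw [Matrix.mul_assoc, Matrix.trace_mul_comm, Matrix.mul_assoc]
    exact h
  ext i j
  have := key (Matrix.single j i 1)
  rw [Matrix.trace_mul_single] at this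
  simpa using this

/-- **Ordinarity equations from one vector.** -/
theorem ordEq_of_vector {p : ℕ} (hp : p.Prime) (M : GQ →* Matrix (Fin 2) (Fin 2) B)
    (R : GQ →* Module.End B E) (hΘ : ∀ g, Θ (M g) = R g)
    {P : ValuationSubring (AlgebraicClosure ℚ)} (hP : P.LiesOverPrime p) {f₀ : E} (hf₀ : f₀ ≠ 0)
    (hI : ∀ σ ∈ P.inertiaSubgroupIn ℚ, R σ f₀ = (M σ).det • f₀)
    {Q : ValuationSubring (AlgebraicClosure ℚ)} (hQ : Q.LiesOverPrime p) {σ₀ : GQ}
    (hσ₀ : σ₀ ∈ Q.inertiaSubgroupIn ℚ) :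
    DefCond.OrdEq M Q σ₀ := by
  obtain ⟨τ, rfl⟩ := exists_smul_eq hP hQ hp
  set f₁ := R τ f₀
  have hf₁ : f₁ ≠ 0 := fun h => hf₀ (by
    have : R τ⁻¹ f₁ = f₀ := by
      rw [← Module.End.mul_apply, ← map_mul, inv_mul_cancel, map_one, Module.End.one_apply]
    rw [← this, h, map_zero])
  have hI₁ : ∀ σ ∈ (τ • P).inertiaSubgroupIn ℚ, R σ f₁ = (M σ).det • f₁ := fun σ hσ => by
    have hσ' : τ⁻¹ * σ * τ ∈ P.inertiaSubgroupIn ℚ := by
      rw [← inertiaSubgroupIn_smul_iff (τ⁻¹ * σ * τ) τ]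
      simpa [mul_assoc] using hσ
    have h1 : R σ f₁ = R τ (R (τ⁻¹ * σ * τ) f₀) := by
      rw [← Module.End.mul_apply, ← Module.End.mul_apply, ← map_mul, ← map_mul]
      congr 2
      group
    have h2 : (M (τ⁻¹ * σ * τ)).det = (M σ).det := by
      have hinv : (M τ⁻¹).det * (M τ).det = 1 := by
        rw [← det_mul, ← map_mul, inv_mul_cancel, map_one, det_one]
      rw [map_mul, map_mul, det_mul, det_mul, mul_right_comm, hinv, one_mul]
    rw [h1, hI _ hσ', h2, map_smul]
  have hkill : ∀ σ ∈ (τ • P).inertiaSubgroupIn ℚ,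
      Θ (M σ - (M σ).det • 1) f₁ = 0 := fun σ hσ => by
    rw [map_sub, map_smul, map_one, hΘ, LinearMap.sub_apply, LinearMap.smul_apply,
      Module.End.one_apply, hI₁ σ hσ, sub_self]
  have hne : ∀ σ, (M σ).det ≠ 0 := fun σ h => one_ne_zero (α := B) (by
    rw [← det_one (n := Fin 2), ← map_one M, ← mul_inv_cancel σ, map_mul, det_mul, h, zero_mul])
  have hbasic := fun σ hσ =>
    adjugate_of_det_sub (hne σ) (det_eq_zero_of_kills htf Θ hf₁ (hkill σ hσ)) rfl
  obtain ⟨hd₀, ht₀, he₀⟩ := hbasic σ₀ hσ₀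
  have hA₀ : M σ₀ - 1 - (M σ₀ - 1).trace • 1 = M σ₀ - (M σ₀).det • 1 := by
    rw [ht₀, he₀]
    ext i j
    fin_cases i <;> fin_cases j <;> simp [Matrix.adjugate_fin_two]
  refine ⟨hd₀, fun σ hσ => ?_, fun σ hσ => ?_⟩
  · have hdec : σ⁻¹ * σ₀ * σ ∈ (τ • P).inertiaSubgroupIn ℚ := by
      rw [← inertiaSubgroupIn_smul_iff (σ⁻¹ * σ₀ * σ) σ,
        (mem_decompositionSubgroup_iff_eq.mp hσ)]
      simpa [mul_assoc] using hσ₀
    have hconj : M (σ⁻¹ * σ₀ * σ) - (M (σ⁻¹ * σ₀ * σ)).det • 1 =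
        M σ⁻¹ * (M σ₀ - (M σ₀).det • 1) * M σ := by
      have hd : (M (σ⁻¹ * σ₀ * σ)).det = (M σ₀).det := by
        have hinv : (M σ⁻¹).det * (M σ).det = 1 := by
          rw [← det_mul, ← map_mul, inv_mul_cancel, map_one, det_one]
        rw [map_mul, map_mul, det_mul, det_mul, mul_right_comm, hinv, one_mul]
      rw [hd, mul_sub, sub_mul, ← map_mul, ← map_mul, mul_smul_comm, mul_one, smul_mul_assoc,
        ← map_mul, inv_mul_cancel, map_one]
    have h := mul_adjugate_eq_zero_of_kills htf Θ hf₁ (hkill _ hdec) (hkill σ₀ hσ₀)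
    rw [hconj] at h
    have h' : (M σ₀ - (M σ₀).det • 1) * M σ * (M σ₀ - (M σ₀).det • 1).adjugate = 0 := by
      have := congrArg (M σ * ·) h
      simp only [mul_zero, ← mul_assoc, ← map_mul, mul_inv_cancel, map_one, one_mul] at this
      exact this
    have h'' : (M σ₀ - (M σ₀).det • 1) * M σ * (M σ₀ - 1) = 0 := by
      rw [he₀, mul_neg, h', neg_zero]
    rw [← hA₀, sub_mul, sub_mul, smul_mul_assoc, one_mul, smul_mul_assoc, sub_eq_zero] at h''
    exact h''
  · obtain ⟨-, -, he⟩ := hbasic σ hσ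
    have h := mul_adjugate_eq_zero_of_kills htf Θ hf₁ (hkill σ₀ hσ₀) (hkill σ hσ)
    rw [← neg_eq_iff_eq_neg.mpr he, mul_neg, neg_eq_zero, ← hA₀, sub_mul, smul_mul_assoc, one_mul,
      sub_eq_zero] at h
    exact h

end Fermat.Agent.OrdinaryGlue
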