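import Fermat.Agent.OrdinaryGlue.Quadratic
import Fermat.Agent.OrdinaryGlue.Vector
import Fermat.Agent.OrdinaryGlue.EigenPart
import Fermat.Agent.RepTheory.FrobTrace
import Fermat.Agent.Oddness.FrobeniusDet
import Fermat.Agent.HeckeRep.Main

/-!
# The eigen part as a module over the matrices, and ordinarity at a point

By density the Frobenius relations give `g + det ρ(g) g⁻¹ = tr ρ(g)` on the eigen part for all `g`,
so it is a module over `M₂(B)` through `ρ`; one vector on which inertia at one place over `p` acts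
by the cyclotomic character then gives the equations of ordinarity of `ρ`.
-/

set_option autoImplicit false

noncomputable section

open CongruenceSubgroup ModularCurve Polynomial Module

namespace Fermat.Agent.OrdinaryGlue

open IsLocalRing
open Fermat.Agent.Deformation (GQ)
open Fermat.Agent.CarayolReduction (tateModule)

variable {G : Type*} [Group G] {R E : Type*} [CommRing R] [AddCommGroup E] [Module R E]

/-- The quadratic relation passes to powers. -/
theorem quadratic_pow {M : G →* Matrix (Fin 2) (Fin 2) R} {act : G →* Module.End R E} {g : G}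
    (h : act g + (M g).det • act g⁻¹ = (M g).trace • (1 : Module.End R E)) :
    ∀ n : ℕ, act (g ^ n) + (M (g ^ n)).det • act (g ^ n)⁻¹ =
      (M (g ^ n)).trace • (1 : Module.End R E)
  | 0 => by simp [two_smul]
  | 1 => by simpa using h
  | n + 2 => by
    have ha := quadratic_pow h (n + 1)
    have hb := quadratic_pow h n
    have key : (act g + (M g).det • act g⁻¹) *
        (act (g ^ (n + 1)) + (M (g ^ (n + 1))).det • act (g ^ (n + 1))⁻¹) =
        (act (g ^ (n + 2)) + (M (g ^ (n + 2))).det • act (g ^ (n + 2))⁻¹) +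
          (M g).det • (act (g ^ n) + (M (g ^ n)).det • act (g ^ n)⁻¹) := by
      have e1 : g * g ^ (n + 1) = g ^ (n + 2) := (pow_succ' g (n + 1)).symm
      have e2 : g⁻¹ * (g ^ (n + 1))⁻¹ = (g ^ (n + 2))⁻¹ := by
        rw [← _root_.mul_inv_rev, ← pow_succ]
      have e3 : g⁻¹ * g ^ (n + 1) = g ^ n := by rw [pow_succ', inv_mul_cancel_left]
      have e4 : g * (g ^ (n + 1))⁻¹ = (g ^ n)⁻¹ := by
        rw [pow_succ, _root_.mul_inv_rev, mul_inv_cancel_left]
      have d1 : (M (g ^ (n + 2))).det = (M g).det * (M (g ^ (n + 1))).det := by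
        rw [← Matrix.det_mul, ← map_mul, e1]
      have d2 : (M (g ^ (n + 1))).det = (M g).det * (M (g ^ n)).det := by
        rw [← Matrix.det_mul, ← map_mul, ← pow_succ']
      simp only [mul_add, add_mul, smul_mul_assoc, mul_smul_comm, smul_smul, ← map_mul,
        e1, e2, e3, e4, smul_add]
      rw [d1, d2]
      module
    rw [h, ha, hb, smul_mul_assoc, one_mul, smul_smul, smul_smul] at key
    have ht : (M (g ^ (n + 2))).trace =
        (M g).trace * (M (g ^ (n + 1))).trace - (M g).det * (M (g ^ n)).trace := by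
      rw [map_pow, map_pow, map_pow, RepTheory.trace_pow_add_two]
    rw [ht, sub_smul, eq_sub_iff_add_eq]
    exact key.symm

variable {B : Type} [CommRing B] [IsDomain B] [IsDiscreteValuationRing B]
variable {N : ℕ} [NeZero N] {p : ℕ} [Fact p.Prime] {a : ℕ → B}

omit [IsDomain B] [IsDiscreteValuationRing B] [NeZero N] [Fact p.Prime] in
/-- Congruent arguments have the same values at level `n`. -/
theorem apply_eq_of_dvd (f : B →+ tateModule (JZero N) p) {n : ℕ} {x y : B}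
    (h : (p : B) ^ n ∣ x - y) : (f x).1 n = (f y).1 n := by
  obtain ⟨z, hz⟩ := h
  rw [← sub_eq_zero, ← Pi.sub_apply, ← AddSubgroupClass.coe_sub, ← map_sub, hz, ← Nat.cast_pow,
    ← nsmul_eq_mul, map_nsmul, AddSubmonoidClass.coe_nsmul, Pi.smul_apply]
  exact CarayolReduction.tateModule_pow_smul (f z) n

/-- The quadratic relation for every element. -/
theorem galEigen_relation (hp0 : (p : B) ≠ 0)
    (ρ : GaloisRepAdic B) (S : Finset ℕ) (hNS : ∀ q : ℕ, q.Prime → q ∣ N → q ∈ S) (hpS : p ∈ S)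
    (hρ : ∀ ℓ : ℕ, ℓ.Prime → ℓ ∉ S → ∀ A : ValuationSubring (AlgebraicClosure ℚ),
      A.LiesOverPrime ℓ → ∀ φ : GQ, A.IsFrobeniusAt φ ℓ →
        LinearMap.charpoly (ρ.ρ φ) = X ^ 2 - C (a ℓ) * X + C (ℓ : B))
    (b : Basis (Fin 2) B ρ.V) (g : GQ) :
    galEigen (N := N) (p := p) a g + (DefCond.repMat ρ b g).det • galEigen a g⁻¹ =
      (DefCond.repMat ρ b g).trace • (1 : Module.End B (EigenMap N p a)) := by
  have htr : ∀ σ, (DefCond.repMat ρ b σ).trace = ρ.trace σ := fun σ =>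
    RepTheory.trace_matRep b ρ.ρ σ
  have hdet : ∀ σ, (DefCond.repMat ρ b σ).det = LinearMap.det (ρ.ρ σ) := fun σ =>
    RepTheory.det_matRep b ρ.ρ σ
  have hfrob : ∀ ℓ : ℕ, ℓ.Prime → ℓ ∉ S → ∀ A : ValuationSubring (AlgebraicClosure ℚ),
      A.LiesOverPrime ℓ → ∀ φ : GQ, A.IsFrobeniusAt φ ℓ →
      galEigen (N := N) (p := p) a φ + (DefCond.repMat ρ b φ).det • galEigen a φ⁻¹ =
        (DefCond.repMat ρ b φ).trace • (1 : Module.End B (EigenMap N p a)) := by
    intro ℓ hℓ hℓS A hA φ hφ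
    obtain ⟨ht, hd⟩ := HeckeRep.trace_det_of_charpoly
      ((RepTheory.charpoly_matRep b ρ.ρ φ).trans (hρ ℓ hℓ hℓS A hA φ hφ))
    rw [show DefCond.repMat ρ b φ = RepTheory.matRep b ρ.ρ φ from rfl, ht, hd]
    have h := galEigen_frobenius (N := N) (p := p) a hℓ (fun h => hℓS (hNS ℓ hℓ h))
      (fun h => hℓS (h ▸ hpS)) hA hφ
    have hinv : galEigen (N := N) (p := p) a φ * galEigen a φ⁻¹ = 1 := by
      rw [← map_mul, mul_inv_cancel, map_one]
    have h2 := congrArg (· * galEigen (N := N) (p := p) a φ⁻¹) h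
    simp only [add_mul, sub_mul, smul_mul_assoc, one_mul, zero_mul, mul_assoc, hinv, mul_one] at h2
    rw [sub_add_eq_add_sub, sub_eq_zero] at h2
    exact h2
  refine LinearMap.ext fun f => eigenMap_ext a fun x n => ?_
  obtain ⟨e, he⟩ : ∃ e : ℕ, ∀ y ∈ maximalIdeal B ^ e, (p : B) ^ n ∣ y := by
    obtain ⟨ϖ, hϖ⟩ := IsDiscreteValuationRing.exists_irreducible B
    obtain ⟨e, he⟩ := IsDiscreteValuationRing.associated_pow_irreducible (pow_ne_zero n hp0) hϖ
    refine ⟨e, fun y hy => ?_⟩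
    rw [hϖ.maximalIdeal_eq, Ideal.span_singleton_pow, Ideal.mem_span_singleton] at hy
    exact he.dvd.trans hy
  obtain ⟨L₁, hL₁, h₁⟩ := RepTheory.exists_field_trace_congr ρ e
  obtain ⟨L₂, hL₂, h₂⟩ := Oddness.exists_field_det_sub_one_mem ρ e
  obtain ⟨L₃, hL₃, h₃⟩ := JacCompare.exists_finiteLevel (N := N) (Fact.out : p.Prime) n
  obtain ⟨ℓ, hℓ, hℓS, A, hA, φ, hφ, j, hj⟩ :=
    HeckeRep.frobGenerates S (L₁ ⊔ L₂ ⊔ L₃) inferInstance g
  have hquad := LinearMap.congr_fun (quadratic_pow (hfrob ℓ hℓ hℓS A hA φ hφ) j) f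
  have hfix : ∀ y ∈ L₁ ⊔ L₂ ⊔ L₃, ((φ ^ j)⁻¹ * g) y = y := fun y hy => by
    rw [AlgEquiv.mul_apply, hj y hy]; exact (φ ^ j).symm_apply_apply y
  set h := (φ ^ j)⁻¹ * g
  have hg : g = φ ^ j * h := by simp [h]
  have hh : ∀ y : JZero N, p ^ n • y = 0 → h • y = y :=
    h₃ h fun y hy => hfix y (le_sup_right (a := L₁ ⊔ L₂) hy)
  have hg1 : ∀ y : JZero N, p ^ n • y = 0 → g • y = φ ^ j • y := fun y hy => by
    rw [hg, mul_smul, hh y hy]
  have hg2 : ∀ y : JZero N, p ^ n • y = 0 → g⁻¹ • y = (φ ^ j)⁻¹ • y := fun y hy => by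
    have hz : p ^ n • ((φ ^ j)⁻¹ • y) = 0 := by
      have e : DistribSMul.toAddMonoidHom (JZero N) (φ ^ j)⁻¹ (p ^ n • y) =
          p ^ n • ((φ ^ j)⁻¹ • y) := map_nsmul (DistribSMul.toAddMonoidHom (JZero N) (φ ^ j)⁻¹) _ y
      rw [← e, hy, map_zero]
    rw [inv_smul_eq_iff]
    conv_lhs => rw [← smul_inv_smul (φ ^ j) y]
    rw [hg, mul_smul, hh _ hz]
  have hd : (p : B) ^ n ∣ (DefCond.repMat ρ b g).det - (DefCond.repMat ρ b (φ ^ j)).det := by
    refine he _ ?_
    have hh2 := h₂ h fun y hy => hfix y (le_sup_left (a := L₁ ⊔ L₂) (le_sup_right (a := L₁) hy))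
    rw [hdet, hdet, hg, map_mul, map_mul]
    convert Ideal.mul_mem_left _ (LinearMap.det (ρ.ρ (φ ^ j))) hh2 using 1
    ring
  have ht : (p : B) ^ n ∣ (DefCond.repMat ρ b g).trace - (DefCond.repMat ρ b (φ ^ j)).trace := by
    refine he _ ?_
    rw [htr, htr]
    exact h₁ g (φ ^ j) fun y hy =>
      hj y (le_sup_left (a := L₁ ⊔ L₂) (le_sup_left (a := L₁) hy))
  have hv : ∀ y : B, p ^ n • (f.toHom y).1 n = 0 := fun y =>
    CarayolReduction.tateModule_pow_smul _ n
  have hq := congrArg (fun F : EigenMap N p a => (F.toHom x).1 n) hquad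
  set c := (DefCond.repMat ρ b g).det
  set t := (DefCond.repMat ρ b g).trace
  set c' := (DefCond.repMat ρ b (φ ^ j)).det
  set t' := (DefCond.repMat ρ b (φ ^ j)).trace
  show g • (f.toHom x).1 n + g⁻¹ • (f.toHom (c * x)).1 n = (f.toHom (t * x)).1 n
  have hc : (f.toHom (c * x)).1 n = (f.toHom (c' * x)).1 n :=
    apply_eq_of_dvd f.toHom (by rw [← sub_mul]; exact hd.mul_right x)
  have ht' : (f.toHom (t * x)).1 n = (f.toHom (t' * x)).1 n :=
    apply_eq_of_dvd f.toHom (by rw [← sub_mul]; exact ht.mul_right x)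
  rw [hg1 _ (hv _), hg2 _ (hv _), hc, ht']
  exact hq

/-- **Ordinarity equations of `ρ` from one vector of the eigen part.** -/
theorem ordEq_of_eigenVector (hp2 : p ≠ 2) (hpB : (p : B) ∈ maximalIdeal B) (hp0 : (p : B) ≠ 0)
    (ρ : GaloisRepAdic B) (habs : ρ.residual.IsAbsolutelyIrreducible) (hdet : ρ.DetIsCyclotomic p)
    (S : Finset ℕ) (hNS : ∀ q : ℕ, q.Prime → q ∣ N → q ∈ S) (hpS : p ∈ S)
    (hρ : ∀ ℓ : ℕ, ℓ.Prime → ℓ ∉ S → ∀ A : ValuationSubring (AlgebraicClosure ℚ),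
      A.LiesOverPrime ℓ → ∀ φ : GQ, A.IsFrobeniusAt φ ℓ →
        LinearMap.charpoly (ρ.ρ φ) = X ^ 2 - C (a ℓ) * X + C (ℓ : B))
    {P : ValuationSubring (AlgebraicClosure ℚ)} (hP : P.LiesOverPrime p)
    (f : EigenMap N p a) (hf : f ≠ 0)
    (hline : ∀ σ ∈ P.inertiaSubgroupIn ℚ, ∀ (x : B) (n k : ℕ),
      (∀ μ : AlgebraicClosure ℚ, μ ^ p ^ n = 1 → σ μ = μ ^ k) →
        σ • (f.toHom x).1 n = k • (f.toHom x).1 n)
    (b : Basis (Fin 2) B ρ.V) {Q : ValuationSubring (AlgebraicClosure ℚ)}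
    (hQ : Q.LiesOverPrime p) {σ₀ : GQ} (hσ₀ : σ₀ ∈ Q.inertiaSubgroupIn ℚ) :
    DefCond.OrdEq (DefCond.repMat ρ b) Q σ₀ := by
  have hp : p.Prime := Fact.out
  have htf : ∀ (c : B) (x : EigenMap N p a), c • x = 0 → c = 0 ∨ x = 0 :=
    eigenMap_torsionFree a hpB
  have h2 : (2 : B) ≠ 0 := by
    intro h
    obtain ⟨k, hk⟩ := (Nat.Prime.odd_of_ne_two hp hp2)
    have : (1 : B) ∈ maximalIdeal B := by
      have he : (p : B) = 1 := by rw [hk]; push_cast; rw [h, zero_mul, zero_add]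
      rwa [he] at hpB
    exact (maximalIdeal.isMaximal B).ne_top ((Ideal.eq_top_iff_one _).mpr this)
  obtain ⟨Θ, hΘ⟩ := exists_factor (M := DefCond.repMat ρ b) (R := galEigen (N := N) (p := p) a)
    (galEigen_relation hp0 ρ S hNS hpS hρ b) (RepTheory.isFull_of_residual_absIrr ρ habs b)
    (fun x hx => (htf _ _ hx).resolve_left h2)
  refine ordEq_of_vector htf Θ hp _ _ hΘ hP hf (fun σ hσ => eigenMap_ext a fun x n => ?_) hQ hσ₀
  obtain ⟨k, hk⟩ := DefCond.exists_exponent p σ n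
  show σ • (f.toHom x).1 n = (f.toHom ((DefCond.repMat ρ b σ).det * x)).1 n
  have hd : (p : B) ^ n ∣ (DefCond.repMat ρ b σ).det * x - (k : B) * x := by
    rw [← sub_mul, show (DefCond.repMat ρ b σ).det = LinearMap.det (ρ.ρ σ) from
      RepTheory.det_matRep b ρ.ρ σ, ← Nat.cast_pow]
    exact (Ideal.mem_span_singleton.mp (hdet.2 n σ k hk)).mul_right x
  rw [hline σ hσ x n k hk, apply_eq_of_dvd f.toHom hd, ← nsmul_eq_mul, map_nsmul,
    AddSubmonoidClass.coe_nsmul, Pi.smul_apply]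

end Fermat.Agent.OrdinaryGlue
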